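/-
Project S36 (Carayol), insurance cell [C-INS] (helper27), file [A].  Prefix `s36ci_`.

NORM-DOWN.  `R` a noetherian integrally closed domain with fraction field `F0`, `F' / F0` a finite
separable extension such that the integral closure `T` of `R` in `F'` is a UFD.  If `f ∈ F0ˣ` is,
at every prime of height one of `R`, a unit times an `m`-th power, then
`f ^ [F' : F0] = ω · g ^ m` with `ω ∈ Rˣ`, `g ∈ F0`.

(`fc_factor` in `T`, then `Algebra.norm`.)
-/
import Mathlib
import Fermat.Agent.JT3.FCore.LocalUFD
import Fermat.Agent.SS.Local.Defs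

set_option autoImplicit false
set_option linter.unusedSectionVars false
set_option linter.unusedVariables false
set_option linter.style.haveILetI false

namespace Fermat.Agent.S36

open Fermat.Agent.JT3 Fermat.Agent.SS

section NormDown

variable {R : Type*} [CommRing R] [IsDomain R] [IsNoetherianRing R] [IsIntegrallyClosed R]
  {F0 : Type*} [Field F0] [Algebra R F0] [IsFractionRing R F0]
  {F' : Type*} [Field F'] [Algebra F0 F'] [Algebra R F'] [IsScalarTower R F0 F']
  [FiniteDimensional F0 F'] [Algebra.IsSeparable F0 F']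

omit [IsNoetherianRing R] [Algebra.IsSeparable F0 F'] in
/-- the norm of a unit of the integral closure is a unit of the base. -/
theorem s36ci_norm_unit (w : (integralClosure R F')ˣ) :
    ∃ ω : Rˣ, algebraMap R F0 (ω : R) = Algebra.norm F0 ((w : integralClosure R F') : F') := by
  have h1 : IsIntegral R (Algebra.norm F0 ((w : integralClosure R F') : F')) :=
    Algebra.isIntegral_norm F0 (w : integralClosure R F').2
  have h2 : IsIntegral R (Algebra.norm F0 (((w⁻¹ : (integralClosure R F')ˣ) :
      integralClosure R F') : F')) :=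
    Algebra.isIntegral_norm F0 ((w⁻¹ : (integralClosure R F')ˣ) : integralClosure R F').2
  obtain ⟨a, ha⟩ := IsIntegrallyClosed.isIntegral_iff.mp h1
  obtain ⟨b, hb⟩ := IsIntegrallyClosed.isIntegral_iff.mp h2
  have hab : a * b = 1 := by
    apply IsFractionRing.injective R F0
    rw [map_mul, ha, hb, ← map_mul, map_one]
    have h3 : (w : integralClosure R F') * ((w⁻¹ : (integralClosure R F')ˣ) :
        integralClosure R F') = 1 := w.mul_inv
    have h4 : ((w : integralClosure R F') : F') * (((w⁻¹ : (integralClosure R F')ˣ) :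
        integralClosure R F') : F') = 1 := by
      rw [← Subalgebra.coe_mul, h3, Subalgebra.coe_one]
    rw [h4, map_one]
  exact ⟨⟨a, b, hab, by rw [mul_comm]; exact hab⟩, ha⟩

/-- **[C-INS] norm-down.** -/
theorem s36ci_normDown [UniqueFactorizationMonoid (integralClosure R F')]
    (m : ℕ) (hm : m ≠ 0) (f : F0) (hf : f ≠ 0)
    (hdiv : ∀ 𝔮 : Ideal R, 𝔮.IsPrime → 𝔮.height = 1 →
      ∃ G : F0, G ≠ 0 ∧ ssl_UnitAt F0 𝔮 (f / G ^ m)) :
    ∃ (ω : Rˣ) (g : F0), f ^ Module.finrank F0 F' = algebraMap R F0 (ω : R) * g ^ m := by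
  classical
  set T := integralClosure R F' with hT
  haveI hfrT : IsFractionRing T F' := integralClosure.isFractionRing_of_finite_extension F0 F'
  haveI hfinT : Module.Finite R T := IsIntegralClosure.finite R F0 F' T
  haveI hnoeT : IsNoetherianRing T := IsNoetherianRing.of_finite R T
  haveI hintT : Algebra.IsIntegral R T := inferInstance
  have hinjRF' : Function.Injective (algebraMap R F') := by
    rw [IsScalarTower.algebraMap_eq R F0 F']
    exact (algebraMap F0 F').injective.comp (IsFractionRing.injective R F0)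
  have hinjRT : Function.Injective (algebraMap R T) := by
    intro a c hac
    apply hinjRF'
    have := congrArg (algebraMap T F') hac
    rwa [← IsScalarTower.algebraMap_apply, ← IsScalarTower.algebraMap_apply] at this
  haveI : FaithfulSMul R T := (faithfulSMul_iff_algebraMap_injective R T).2 hinjRT
  have hf' : algebraMap F0 F' f ≠ 0 := (map_ne_zero_iff _ (algebraMap F0 F').injective).2 hf
  -- the hypothesis of `fc_factor`
  have key : ∀ p : T, Prime p → ∃ (G : F') (a b : T), ¬ p ∣ a ∧ ¬ p ∣ b ∧
      algebraMap F0 F' f * algebraMap T F' b = algebraMap T F' a * G ^ m := by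
    intro p hp
    set P : Ideal T := Ideal.span {p} with hP
    haveI hPprime : P.IsPrime := (Ideal.span_singleton_prime hp.ne_zero).2 hp
    have hP0 : P ≠ ⊥ := by
      rw [hP, Ne, Ideal.span_singleton_eq_bot]; exact hp.ne_zero
    have hPht : P.height = 1 := by
      apply le_antisymm
      · refine Ideal.height_le_one_of_isPrincipal_of_mem_minimalPrimes P P ?_
        exact ⟨⟨hPprime, le_rfl⟩, fun Q hQ hQP => hQ.2⟩
      · rw [Order.one_le_iff_pos, pos_iff_ne_zero, Ne, Ideal.height_eq_zero_iff_eq_bot]
        exact hP0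
    set 𝔮 : Ideal R := P.under R with h𝔮
    haveI h𝔮prime : 𝔮.IsPrime := Ideal.comap_isPrime _ P
    haveI hlies : P.LiesOver 𝔮 := ⟨rfl⟩
    have h𝔮0 : 𝔮 ≠ ⊥ := by
      intro h0
      exact hP0 (Ideal.eq_bot_of_comap_eq_bot (R := R) h0)
    have h𝔮ht : 𝔮.height = 1 := by
      apply le_antisymm
      · have h1 := Ideal.height_eq_height_add_of_liesOver_of_hasGoingDown 𝔮 P
        rw [hPht] at h1
        rw [h1]
        exact le_self_add
      · rw [Order.one_le_iff_pos, pos_iff_ne_zero, Ne, Ideal.height_eq_zero_iff_eq_bot]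
        exact h𝔮0
    obtain ⟨G, hG0, a, s, ha, hs, has⟩ := hdiv 𝔮 h𝔮prime h𝔮ht
    have hnd : ∀ c : R, c ∉ 𝔮 → ¬ p ∣ algebraMap R T c := by
      intro c hc hdvd
      apply hc
      show algebraMap R T c ∈ P
      rw [hP, Ideal.mem_span_singleton]
      exact hdvd
    refine ⟨algebraMap F0 F' G, algebraMap R T a, algebraMap R T s, hnd a ha, hnd s hs, ?_⟩
    have hGm : G ^ m ≠ 0 := pow_ne_zero _ hG0
    have e1 : f * algebraMap R F0 s = algebraMap R F0 a * G ^ m := by
      have : f / G ^ m * algebraMap R F0 s * G ^ m = algebraMap R F0 a * G ^ m := by rw [has]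
      rw [← this]
      field_simp
    have e2 := congrArg (algebraMap F0 F') e1
    rw [map_mul, map_mul, map_pow, ← IsScalarTower.algebraMap_apply R F0 F',
      ← IsScalarTower.algebraMap_apply R F0 F'] at e2
    rw [← IsScalarTower.algebraMap_apply R T F', ← IsScalarTower.algebraMap_apply R T F']
    exact e2
  obtain ⟨w, G', hwG⟩ := fc_factor (R := T) (F := F') m hm (algebraMap F0 F' f) hf' key
  obtain ⟨ω, hω⟩ := s36ci_norm_unit (R := R) (F0 := F0) (F' := F') w
  refine ⟨ω, Algebra.norm F0 G', ?_⟩
  have h1 := congrArg (Algebra.norm F0) hwG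
  rw [Algebra.norm_algebraMap, map_mul, map_pow] at h1
  rw [h1, hω]
  rfl

end NormDown

end Fermat.Agent.S36
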