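/-
Project S36 (Carayol), insurance cell [C-INS] (helper27), file [B].  Prefix `s36ci_`.

A SEMILOCAL NOETHERIAN DOMAIN WHICH IS LOCALLY FACTORIAL IS FACTORIAL.

* `s36ci_exists_local_gen` : a height-one prime `P` of `T` is generated, in the factorial local ring
  `T_n`, by an element of `P`;
* `s36ci_principal_of_semilocal` : hence (Chinese remainder theorem) `P` is principal when `T` has
  finitely many maximal ideals;
* `s36ci_ufd_of_semilocal` : Kaplansky's criterion.
-/
import Mathlib

set_option autoImplicit false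
set_option linter.unusedSectionVars false
set_option linter.unusedVariables false
set_option linter.style.haveILetI false

namespace Fermat.Agent.S36

section SemilocalUFD

variable {T : Type*} [CommRing T] [IsDomain T] [IsNoetherianRing T]

/-- a nonzero prime inside a prime of height one is equal to it. -/
theorem s36ci_eq_of_le_height_one {p 𝔮 : Ideal T} [p.IsPrime] [𝔮.IsPrime] (hp0 : p ≠ ⊥)
    (h1 : 𝔮.height = 1) (hle : p ≤ 𝔮) : p = 𝔮 := by
  by_contra hne
  have hlt : p < 𝔮 := lt_of_le_of_ne hle hne
  have h2 := Ideal.height_strict_mono_of_isPrime_of_isPrime hlt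
  rw [h1, Order.lt_one_iff, Ideal.height_eq_zero_iff_eq_bot] at h2
  exact hp0 h2

/-- **local generator from the prime itself.** -/
theorem s36ci_exists_local_gen (n : Ideal T) [hn : n.IsMaximal]
    [UniqueFactorizationMonoid (Localization.AtPrime n)]
    (P : Ideal T) [hP : P.IsPrime] (hP1 : P.height = 1) :
    ∃ g ∈ P, Ideal.map (algebraMap T (Localization.AtPrime n)) P =
      Ideal.span {algebraMap T (Localization.AtPrime n) g} := by
  by_cases hle : P ≤ n
  · -- `P T_n` is a prime of height one of the factorial ring `T_n`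
    have hdisj : Disjoint (n.primeCompl : Set T) (P : Set T) := by
      rw [Set.disjoint_left]
      intro x hx hxP
      exact hx (hle hxP)
    set P' := Ideal.map (algebraMap T (Localization.AtPrime n)) P with hP'
    haveI hP'prime : P'.IsPrime :=
      IsLocalization.isPrime_of_isPrime_disjoint n.primeCompl _ P hP hdisj
    have hP'ht : P'.height = 1 := by
      rw [hP', IsLocalization.height_map_of_disjoint n.primeCompl P hdisj]
      exact hP1
    have hP'0 : P' ≠ ⊥ := by
      intro h0
      rw [h0, Ideal.height_bot] at hP'ht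
      exact zero_ne_one hP'ht
    obtain ⟨p', hp'mem, hp'⟩ := Ideal.IsPrime.exists_mem_prime_of_ne_bot hP'prime hP'0
    haveI : (Ideal.span {p'} : Ideal (Localization.AtPrime n)).IsPrime :=
      (Ideal.span_singleton_prime hp'.ne_zero).2 hp'
    have hspan : Ideal.span {p'} = P' := by
      refine s36ci_eq_of_le_height_one ?_ hP'ht ?_
      · rw [Ne, Ideal.span_singleton_eq_bot]; exact hp'.ne_zero
      · rw [Ideal.span_le, Set.singleton_subset_iff]; exact hp'mem
    obtain ⟨⟨⟨a, haP⟩, ⟨s, hs⟩⟩, has⟩ :=
      (IsLocalization.mem_map_algebraMap_iff n.primeCompl (Localization.AtPrime n)).1 hp'mem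
    refine ⟨a, haP, ?_⟩
    have hu : IsUnit (algebraMap T (Localization.AtPrime n) s) :=
      IsLocalization.map_units (Localization.AtPrime n) (⟨s, hs⟩ : n.primeCompl)
    rw [← hspan]
    simp only at has
    rw [← has]
    exact (Ideal.span_singleton_mul_right_unit hu p').symm
  · obtain ⟨g, hgP, hgn⟩ := Set.not_subset.1 hle
    refine ⟨g, hgP, ?_⟩
    have hu : IsUnit (algebraMap T (Localization.AtPrime n) g) :=
      (IsLocalization.AtPrime.isUnit_to_map_iff (Localization.AtPrime n) n g).2 hgn
    rw [Ideal.span_singleton_eq_top.2 hu]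
    exact Ideal.eq_top_of_isUnit_mem _ (Ideal.mem_map_of_mem _ hgP) hu

variable [Finite (MaximalSpectrum T)]

/-- **a height-one prime of a locally factorial semilocal domain is principal.** -/
theorem s36ci_principal_of_semilocal
    (h : ∀ (n : Ideal T) [n.IsMaximal], UniqueFactorizationMonoid (Localization.AtPrime n))
    (P : Ideal T) [hP : P.IsPrime] (hP1 : P.height = 1) : ∃ g : T, P = Ideal.span {g} := by
  classical
  haveI : Fintype (MaximalSpectrum T) := Fintype.ofFinite _
  -- local generators
  have hloc : ∀ n : MaximalSpectrum T, ∃ g ∈ P,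
      Ideal.map (algebraMap T (Localization.AtPrime n.asIdeal)) P =
        Ideal.span {algebraMap T (Localization.AtPrime n.asIdeal) g} := by
    intro n
    haveI := n.isMaximal
    haveI := h n.asIdeal
    exact s36ci_exists_local_gen n.asIdeal P hP1
  choose gl hglP hgl using hloc
  -- Chinese remainder coefficients
  have hcop : Pairwise (Function.onFun IsCoprime fun n : MaximalSpectrum T => n.asIdeal) := by
    intro n n' hne
    exact Ideal.isCoprime_of_isMaximal (MaximalSpectrum.ext_iff.ne.mp hne)
  have hcrt : ∀ n : MaximalSpectrum T, ∃ c : T, ∀ n' : MaximalSpectrum T,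
      c - (if n' = n then 1 else 0) ∈ n'.asIdeal := fun n =>
    Ideal.exists_forall_sub_mem_ideal hcop fun n' => if n' = n then 1 else 0
  choose c hc using hcrt
  set g : T := ∑ n : MaximalSpectrum T, c n * gl n with hg
  have hgP : g ∈ P := Ideal.sum_mem _ fun n _ => Ideal.mul_mem_left _ _ (hglP n)
  refine ⟨g, ?_⟩
  apply Ideal.eq_of_localization_maximal
  intro n0 hn0
  haveI := hn0
  haveI := h n0
  set Tn := Localization.AtPrime n0 with hTn
  set ν : MaximalSpectrum T := ⟨n0, hn0⟩ with hν
  set G0 : Tn := algebraMap T Tn (gl ν) with hG0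
  have hmapP : Ideal.map (algebraMap T Tn) P = Ideal.span {G0} := hgl ν
  rw [Ideal.map_span, Set.image_singleton, hmapP]
  -- write the other local generators as multiples of `G0`
  have hmul : ∀ n : MaximalSpectrum T, ∃ a : Tn, algebraMap T Tn (gl n) = a * G0 := by
    intro n
    have h1 : algebraMap T Tn (gl n) ∈ Ideal.map (algebraMap T Tn) P :=
      Ideal.mem_map_of_mem _ (hglP n)
    rw [hmapP, Ideal.mem_span_singleton'] at h1
    obtain ⟨a, ha⟩ := h1
    exact ⟨a, ha.symm⟩
  choose a ha using hmul
  set U : Tn := algebraMap T Tn (c ν) +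
    ∑ n ∈ Finset.univ.erase ν, algebraMap T Tn (c n) * a n with hU
  have hgU : algebraMap T Tn g = U * G0 := by
    rw [hg, map_sum, ← Finset.add_sum_erase Finset.univ _ (Finset.mem_univ ν), hU, add_mul,
      Finset.sum_mul, map_mul]
    congr 1
    apply Finset.sum_congr rfl
    intro n _
    rw [map_mul, ha n]
    ring
  have hUunit : IsUnit U := by
    have hmem : ∀ x : T, x ∈ n0 → algebraMap T Tn x ∈ IsLocalRing.maximalIdeal Tn := by
      intro x hx
      rw [← IsLocalization.AtPrime.map_eq_maximalIdeal n0 Tn]
      exact Ideal.mem_map_of_mem _ hx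
    have h1 : U - 1 ∈ IsLocalRing.maximalIdeal Tn := by
      have e : U - 1 = algebraMap T Tn (c ν - 1) +
          ∑ n ∈ Finset.univ.erase ν, algebraMap T Tn (c n) * a n := by
        rw [hU, map_sub, map_one]; ring
      rw [e]
      refine Ideal.add_mem _ ?_ (Ideal.sum_mem _ fun n hn => ?_)
      · apply hmem
        have := hc ν ν
        rwa [if_pos rfl] at this
      · apply Ideal.mul_mem_right
        apply hmem
        have hne : ν ≠ n := fun h => (Finset.ne_of_mem_erase hn) h.symm
        have := hc n ν
        rwa [if_neg hne, sub_zero] at this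
    by_contra hnu
    have h2 : U ∈ IsLocalRing.maximalIdeal Tn := (IsLocalRing.mem_maximalIdeal _).2 hnu
    have h3 : (1 : Tn) ∈ IsLocalRing.maximalIdeal Tn := by
      have h4 := Ideal.sub_mem _ h2 h1
      rwa [sub_sub_cancel] at h4
    exact (IsLocalRing.maximalIdeal.isMaximal Tn).ne_top ((Ideal.eq_top_iff_one _).2 h3)
  rw [hgU, mul_comm]
  exact (Ideal.span_singleton_mul_right_unit hUunit G0).symm

/-- **[C-INS] (B): a locally factorial semilocal noetherian domain is factorial.** -/
theorem s36ci_ufd_of_semilocal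
    (h : ∀ (n : Ideal T) [n.IsMaximal], UniqueFactorizationMonoid (Localization.AtPrime n)) :
    UniqueFactorizationMonoid T := by
  refine UniqueFactorizationMonoid.iff_exists_prime_mem_of_isPrime.2 fun P hP0 hPprime => ?_
  obtain ⟨x, hxP, hx0⟩ := Submodule.exists_mem_ne_zero_of_ne_bot hP0
  have hle : Ideal.span {x} ≤ P := (Ideal.span_singleton_le_iff_mem P).2 hxP
  obtain ⟨P1, hP1min, hP1P⟩ := Ideal.exists_minimalPrimes_le hle
  haveI hP1prime : P1.IsPrime := hP1min.1.1
  have hxP1 : x ∈ P1 := hP1min.1.2 (Ideal.mem_span_singleton_self _)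
  have hP10 : P1 ≠ ⊥ := fun h0 => hx0 (by rw [h0] at hxP1; exact hxP1)
  have hP1ht : P1.height = 1 := by
    apply le_antisymm
    · exact Ideal.height_le_one_of_isPrincipal_of_mem_minimalPrimes (Ideal.span {x}) P1 hP1min
    · rw [Order.one_le_iff_pos, pos_iff_ne_zero, Ne, Ideal.height_eq_zero_iff_eq_bot]
      exact hP10
  obtain ⟨g, hg⟩ := s36ci_principal_of_semilocal h P1 hP1ht
  have hg0 : g ≠ 0 := by
    rintro rfl
    apply hP10
    rw [hg]
    simp
  refine ⟨g, hP1P (by rw [hg]; exact Ideal.mem_span_singleton_self _), ?_⟩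
  rw [← Ideal.span_singleton_prime hg0, ← hg]
  exact hP1prime

end SemilocalUFD

end Fermat.Agent.S36
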