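/-
Project S36 (Carayol), insurance cell [C-INS] (helper27), file [D].  Prefix `s36ci_`.

PURITY ⟹ FACTORIALITY OF THE NORMALISATION.

* `s36ci_finite_maximalSpectrum` : a finite algebra over a local ring is semilocal;
* `s36ci_ufd_of_regAt` : a semilocal noetherian normal chart `B ⊆ F'` with the local regularity seam
  `jt_RegAt B ϖ` at all of its maximal ideals is factorial (`fc_ufd` + `s36ci_ufd_of_semilocal`);
* `s36ci_purity_ufd` : `T0` a noetherian normal LOCAL domain, `ϖ` a prime element with
  `T0 ⧸ ϖ` a PID, `F' / Frac T0` finite separable and unramified over `T0` in codimension one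
  ⟹ the integral closure of `T0` in `F'` is factorial  (`el_sm_regAt`).
-/
import Mathlib
import Fermat.Agent.JT3.FCore.LocalUFD
import Fermat.Agent.JT3.Model.EtaleSeam
import Fermat.Agent.SS.Local.Chart
import Fermat.Agent.S36.CIns.SemilocalUFD

set_option autoImplicit false
set_option linter.unusedSectionVars false
set_option linter.unusedVariables false
set_option linter.style.haveILetI false

namespace Fermat.Agent.S36

open Fermat.Agent.JT3 Fermat.Agent.SS IsLocalRing

section MaxSpec

/-- a finite algebra over a local ring has finitely many maximal ideals. -/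
theorem s36ci_finite_maximalSpectrum (A S : Type*) [CommRing A] [IsLocalRing A] [CommRing S]
    [Algebra A S] [Module.Finite A S] : Finite (MaximalSpectrum S) := by
  haveI : Algebra.IsIntegral A S := Algebra.IsIntegral.of_finite A S
  have hfin : ((maximalIdeal A).primesOver S).Finite :=
    Algebra.QuasiFinite.finite_primesOver (maximalIdeal A)
  haveI := hfin.to_subtype
  have hover : ∀ n : MaximalSpectrum S, n.asIdeal ∈ (maximalIdeal A).primesOver S := by
    intro n
    haveI := n.isMaximal
    refine ⟨n.isMaximal.isPrime, ⟨?_⟩⟩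
    haveI := Ideal.isMaximal_comap_of_isIntegral_of_isMaximal (R := A) n.asIdeal
    exact (IsLocalRing.eq_maximalIdeal this).symm
  refine Finite.of_injective
    (fun n : MaximalSpectrum S => (⟨n.asIdeal, hover n⟩ : (maximalIdeal A).primesOver S)) ?_
  intro n n' h
  apply MaximalSpectrum.ext
  exact congrArg Subtype.val h

end MaxSpec

section RegAt

universe v

variable {A0 : Type*} [CommRing A0] {F' : Type v} [Field F'] [Algebra A0 F']
variable (B : Subalgebra A0 F') [IsFractionRing B F'] [IsNoetherianRing B] [IsIntegrallyClosed B]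

/-- **regular at every closed point + semilocal ⟹ factorial.** -/
theorem s36ci_ufd_of_regAt [Finite (MaximalSpectrum B)] (π : A0)
    (hϖ0 : algebraMap A0 F' π ≠ 0) (hreg : jt_RegAt B (algebraMap A0 B π))
    (hall : ∀ n : Ideal B, n.IsMaximal → algebraMap A0 B π ∈ n) :
    UniqueFactorizationMonoid B := by
  apply s36ci_ufd_of_semilocal
  intro n hn
  haveI hnp : n.IsPrime := hn.isPrime
  obtain ⟨⟨t, ht⟩, hdom⟩ := hreg n hn (hall n hn)
  haveI := ssl_loc_isNoetherianRing (F0 := F') n
  haveI := ssl_loc_isLocalRing (F0 := F') n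
  have hprime := ssl_loc_prime_of_dom (F0 := F') n hϖ0 (hall n hn) hdom
  have hmax := ssl_loc_max_of_genBy (F0 := F') n ht
  haveI hufd : UniqueFactorizationMonoid (ssl_locSub F' n) := fc_ufd hprime hmax
  let e : ssl_locSub F' n ≃ₐ[B] Localization.AtPrime n :=
    IsLocalization.algEquiv n.primeCompl (ssl_locSub F' n) (Localization.AtPrime n)
  exact e.toMulEquiv.uniqueFactorizationMonoid hufd

end RegAt

section Purity

attribute [local instance] FractionRing.liftAlgebra

variable {T0 : Type*} [CommRing T0] [IsDomain T0] [IsNoetherianRing T0] [IsIntegrallyClosed T0]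
  [IsLocalRing T0]
  (K' : Type*) [Field K'] [Algebra T0 K'] [IsFractionRing T0 K']
  (F' : Type*) [Field F'] [Algebra K' F'] [Algebra T0 F'] [IsScalarTower T0 K' F']
  [FiniteDimensional K' F'] [Algebra.IsSeparable K' F']

/-- **[C-INS] (D): purity ⟹ the normalisation is factorial.** -/
theorem s36ci_purity_ufd {ϖ : T0} (hϖ : Prime ϖ)
    [IsPrincipalIdealRing (T0 ⧸ Ideal.span {ϖ})]
    (h : ∀ (p : Ideal T0) [p.IsPrime], p.height = 1 → jt_Unram (el_bd_loc K' p) F') :
    UniqueFactorizationMonoid (integralClosure T0 F') := by
  have hϖm : ϖ ∈ maximalIdeal T0 := (mem_maximalIdeal ϖ).2 hϖ.not_isUnit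
  have hjac : ϖ ∈ (⊥ : Ideal T0).jacobson := IsLocalRing.maximalIdeal_le_jacobson _ hϖm
  have hreg := el_sm_regAt K' F' hϖ hjac h
  haveI hfr : IsFractionRing (integralClosure T0 F') F' :=
    integralClosure.isFractionRing_of_finite_extension K' F'
  haveI hfin : Module.Finite T0 (integralClosure T0 F') := IsIntegralClosure.finite T0 K' F' _
  haveI hnoe : IsNoetherianRing (integralClosure T0 F') := IsNoetherianRing.of_finite T0 _
  haveI hic : IsIntegrallyClosed (integralClosure T0 F') :=
    integralClosure.isIntegrallyClosedOfFiniteExtension K'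
  haveI hsemi : Finite (MaximalSpectrum (integralClosure T0 F')) :=
    s36ci_finite_maximalSpectrum T0 _
  have hinj : Function.Injective (algebraMap T0 F') := by
    rw [IsScalarTower.algebraMap_eq T0 K' F']
    exact (algebraMap K' F').injective.comp (IsFractionRing.injective T0 K')
  refine s36ci_ufd_of_regAt (integralClosure T0 F') ϖ ?_ hreg ?_
  · exact (map_ne_zero_iff _ hinj).2 hϖ.ne_zero
  · intro n hn
    haveI := hn
    haveI : Algebra.IsIntegral T0 (integralClosure T0 F') := inferInstance
    haveI := Ideal.isMaximal_comap_of_isIntegral_of_isMaximal (R := T0) n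
    have hcomap : n.comap (algebraMap T0 (integralClosure T0 F')) = maximalIdeal T0 :=
      IsLocalRing.eq_maximalIdeal this
    have : ϖ ∈ n.comap (algebraMap T0 (integralClosure T0 F')) := by rw [hcomap]; exact hϖm
    exact this

end Purity

end Fermat.Agent.S36
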