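/-
Project S36 (Carayol), insurance cell [C-INS] (helper27), file [C].  Prefix `s36ci_`.

THE TAME BASE CHANGE OF A REGULAR LOCAL RING IS REGULAR.

`R1` a noetherian local domain with `𝔪 = (π, u)`, `π` prime (fraction field `K1`), `F'` a field
containing `K1` and an element `ϖ` with `ϖ ^ e = π` (`e ≥ 1`).  Then `T0 := R1[ϖ] ⊆ F'` is a
noetherian local domain, finite over `R1`, `ϖ` is a prime element of `T0`, `𝔪_{T0} = (ϖ, u)`;
hence (`fc_ufd`) `T0` is factorial, in particular integrally closed, and `T0 ⧸ ϖ` is a PID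
(`nfr_isPrincipalIdealRing_quot`).

No irreducibility of `X ^ e - π` is used: the key point is
`ϖ ∣ a` in `T0` ⟹ `π ∣ a` in `R1` (`a ∈ R1`), because `(a / ϖ) ^ e = a ^ e / π` is integral.
-/
import Mathlib
import Fermat.Agent.JT3.FCore.LocalUFD

set_option autoImplicit false
set_option linter.unusedSectionVars false
set_option linter.unusedVariables false
set_option linter.style.haveILetI false

namespace Fermat.Agent.S36

open Fermat.Agent.JT3 IsLocalRing

section TameBase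

variable {R1 : Type*} [CommRing R1] [IsDomain R1] [IsLocalRing R1] [IsNoetherianRing R1]
  (K1 : Type*) [Field K1] [Algebra R1 K1] [IsFractionRing R1 K1]
  {F' : Type*} [Field F'] [Algebra K1 F'] [Algebra R1 F'] [IsScalarTower R1 K1 F']

/-- the generator `ϖ` as an element of `R1[ϖ]`. -/
def s36ci_gen (ϖ : F') : Algebra.adjoin R1 {ϖ} :=
  ⟨ϖ, Algebra.subset_adjoin (Set.mem_singleton ϖ)⟩

theorem s36ci_coe_gen (ϖ : F') : ((s36ci_gen (R1 := R1) ϖ : Algebra.adjoin R1 {ϖ}) : F') = ϖ := rfl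

variable {π u : R1} (hπ : Prime π) (hmax : maximalIdeal R1 = Ideal.span {π, u})
  {e : ℕ} (he : e ≠ 0) {ϖ : F'} (hϖ : ϖ ^ e = algebraMap R1 F' π)

include hϖ he in
theorem s36ci_isIntegral_gen : IsIntegral R1 ϖ := by
  refine ⟨Polynomial.X ^ e - Polynomial.C π, Polynomial.monic_X_pow_sub_C π he, ?_⟩
  rw [Polynomial.eval₂_sub, Polynomial.eval₂_pow, Polynomial.eval₂_X, Polynomial.eval₂_C, hϖ,
    sub_self]

include hϖ he in
theorem s36ci_isIntegral_adjoin (t : Algebra.adjoin R1 {ϖ}) : IsIntegral R1 (t : F') := by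
  have h1 : Algebra.adjoin R1 {ϖ} ≤ integralClosure R1 F' := by
    apply Algebra.adjoin_le
    rw [Set.singleton_subset_iff]
    exact s36ci_isIntegral_gen he hϖ
  exact h1 t.2

include hϖ he in
theorem s36ci_finite_adjoin : Module.Finite R1 (Algebra.adjoin R1 {ϖ}) :=
  Module.Finite.iff_fg.2 (s36ci_isIntegral_gen he hϖ).fg_adjoin_singleton

include hϖ he in
theorem s36ci_isNoetherianRing_adjoin : IsNoetherianRing (Algebra.adjoin R1 {ϖ}) := by
  haveI := s36ci_finite_adjoin (R1 := R1) he hϖ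
  exact IsNoetherianRing.of_finite R1 _

include K1 in
omit [IsLocalRing R1] [IsNoetherianRing R1] in
theorem s36ci_injective : Function.Injective (algebraMap R1 F') := by
  rw [IsScalarTower.algebraMap_eq R1 K1 F']
  exact (algebraMap K1 F').injective.comp (IsFractionRing.injective R1 K1)

include K1 hπ hmax hϖ he in
/-- **the key divisibility**: `ϖ ∣ a` in `R1[ϖ]` implies `π ∣ a` in `R1`. -/
theorem s36ci_dvd_of_gen_dvd (a : R1)
    (h : s36ci_gen (R1 := R1) ϖ ∣ algebraMap R1 (Algebra.adjoin R1 {ϖ}) a) : π ∣ a := by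
  haveI : UniqueFactorizationMonoid R1 := fc_ufd hπ hmax
  haveI : IsIntegrallyClosed R1 := inferInstance
  obtain ⟨t, ht⟩ := h
  have hinj := s36ci_injective (R1 := R1) K1 (F' := F')
  have ht' : algebraMap R1 F' a = ϖ * (t : F') := by
    have := congrArg (fun z : Algebra.adjoin R1 {ϖ} => (z : F')) ht
    simpa [s36ci_coe_gen] using this
  have hπF : algebraMap R1 F' π ≠ 0 := (map_ne_zero_iff _ hinj).2 hπ.ne_zero
  -- `t ^ e` lies in `K1` and is integral
  have hte : (t : F') ^ e = algebraMap K1 F' (algebraMap R1 K1 (a ^ e) / algebraMap R1 K1 π) := by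
    have hπK : algebraMap R1 K1 π ≠ 0 :=
      (map_ne_zero_iff _ (IsFractionRing.injective R1 K1)).2 hπ.ne_zero
    rw [map_div₀, ← IsScalarTower.algebraMap_apply, ← IsScalarTower.algebraMap_apply,
      eq_div_iff hπF, map_pow, ht', mul_pow, hϖ]
    ring
  have hint : IsIntegral R1 (algebraMap R1 K1 (a ^ e) / algebraMap R1 K1 π) := by
    have h1 : IsIntegral R1 ((t : F') ^ e) := (s36ci_isIntegral_adjoin he hϖ t).pow e
    rw [hte] at h1
    exact (isIntegral_algebraMap_iff (algebraMap K1 F').injective).1 h1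
  obtain ⟨b, hb⟩ := IsIntegrallyClosed.isIntegral_iff.mp hint
  have hπK : algebraMap R1 K1 π ≠ 0 :=
    (map_ne_zero_iff _ (IsFractionRing.injective R1 K1)).2 hπ.ne_zero
  have hdvd : π ∣ a ^ e := by
    refine ⟨b, ?_⟩
    apply IsFractionRing.injective R1 K1
    rw [map_mul, hb, mul_div_cancel₀ _ hπK]
  exact hπ.dvd_of_dvd_pow hdvd

omit [IsDomain R1] [IsLocalRing R1] [IsNoetherianRing R1] in
/-- every element of `R1[ϖ]` is congruent to an element of `R1` modulo `ϖ`. -/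
theorem s36ci_exists_const (ϖ : F') (t : Algebra.adjoin R1 {ϖ}) :
    ∃ (a : R1) (s : Algebra.adjoin R1 {ϖ}),
      t = algebraMap R1 (Algebra.adjoin R1 {ϖ}) a + s36ci_gen (R1 := R1) ϖ * s := by
  obtain ⟨t, ht⟩ := t
  induction ht using Algebra.adjoin_induction with
  | mem x hx =>
    rw [Set.mem_singleton_iff] at hx
    subst hx
    exact ⟨0, 1, by rw [map_zero, zero_add, mul_one]; rfl⟩
  | algebraMap r =>
    exact ⟨r, 0, by rw [mul_zero, add_zero]; rfl⟩
  | add x y hx hy ihx ihy =>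
    obtain ⟨a, s, h1⟩ := ihx
    obtain ⟨b, s', h2⟩ := ihy
    refine ⟨a + b, s + s', ?_⟩
    have : (⟨x + y, Subalgebra.add_mem _ hx hy⟩ : Algebra.adjoin R1 {ϖ}) =
        ⟨x, hx⟩ + ⟨y, hy⟩ := rfl
    rw [this, h1, h2, map_add]
    ring
  | mul x y hx hy ihx ihy =>
    obtain ⟨a, s, h1⟩ := ihx
    obtain ⟨b, s', h2⟩ := ihy
    refine ⟨a * b, algebraMap R1 _ a * s' + s * algebraMap R1 _ b + s36ci_gen ϖ * s * s', ?_⟩
    have : (⟨x * y, Subalgebra.mul_mem _ hx hy⟩ : Algebra.adjoin R1 {ϖ}) =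
        ⟨x, hx⟩ * ⟨y, hy⟩ := rfl
    rw [this, h1, h2, map_mul]
    ring

include hϖ he in
omit [IsLocalRing R1] [IsNoetherianRing R1] in
theorem s36ci_gen_pow : (s36ci_gen (R1 := R1) ϖ) ^ e = algebraMap R1 (Algebra.adjoin R1 {ϖ}) π := by
  apply Subtype.ext
  rw [SubmonoidClass.coe_pow]
  exact hϖ

include hϖ he in
omit [IsLocalRing R1] [IsNoetherianRing R1] in
theorem s36ci_gen_dvd_pi : s36ci_gen (R1 := R1) ϖ ∣ algebraMap R1 (Algebra.adjoin R1 {ϖ}) π := by
  rw [← s36ci_gen_pow he hϖ]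
  exact dvd_pow_self _ he

include K1 hπ hmax hϖ he in
/-- **`ϖ` is a prime element of `R1[ϖ]`.** -/
theorem s36ci_gen_prime : Prime (s36ci_gen (R1 := R1) ϖ) := by
  have hinj := s36ci_injective (R1 := R1) K1 (F' := F')
  have hkey := s36ci_dvd_of_gen_dvd K1 hπ hmax he hϖ
  refine ⟨?_, ?_, ?_⟩
  · intro h0
    have : ϖ = 0 := congrArg (fun z : Algebra.adjoin R1 {ϖ} => (z : F')) h0
    rw [this, zero_pow he] at hϖ
    exact hπ.ne_zero (hinj (by rw [← hϖ, map_zero]))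
  · intro hu
    have h1 : s36ci_gen (R1 := R1) ϖ ∣ algebraMap R1 (Algebra.adjoin R1 {ϖ}) 1 := by
      rw [map_one]; exact hu.dvd
    exact hπ.not_isUnit (isUnit_of_dvd_one (hkey 1 h1))
  · intro x y hxy
    obtain ⟨a, s, hx⟩ := s36ci_exists_const ϖ x
    obtain ⟨b, s', hy⟩ := s36ci_exists_const ϖ y
    have h1 : s36ci_gen (R1 := R1) ϖ ∣ algebraMap R1 (Algebra.adjoin R1 {ϖ}) (a * b) := by
      have e1 : algebraMap R1 (Algebra.adjoin R1 {ϖ}) (a * b) =
          x * y - s36ci_gen ϖ * (algebraMap R1 _ a * s' + s * algebraMap R1 _ b +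
            s36ci_gen ϖ * s * s') := by
        rw [hx, hy, map_mul]; ring
      rw [e1]
      exact dvd_sub hxy (Dvd.intro _ rfl)
    have hpi := s36ci_gen_dvd_pi (R1 := R1) he hϖ
    rcases hπ.dvd_or_dvd (hkey _ h1) with h | h
    · left
      rw [hx]
      refine dvd_add ?_ (Dvd.intro _ rfl)
      exact hpi.trans (map_dvd (algebraMap R1 (Algebra.adjoin R1 {ϖ})) h)
    · right
      rw [hy]
      refine dvd_add ?_ (Dvd.intro _ rfl)
      exact hpi.trans (map_dvd (algebraMap R1 (Algebra.adjoin R1 {ϖ})) h)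

include hπ hϖ he in
/-- `ϖ` lies in every maximal ideal of `R1[ϖ]`. -/
theorem s36ci_gen_mem_of_isMaximal (M : Ideal (Algebra.adjoin R1 {ϖ})) [hM : M.IsMaximal] :
    s36ci_gen (R1 := R1) ϖ ∈ M := by
  haveI : Algebra.IsIntegral R1 (Algebra.adjoin R1 {ϖ}) :=
    ⟨fun t => by
      have h := s36ci_isIntegral_adjoin (R1 := R1) he hϖ t
      exact (isIntegral_algebraMap_iff (A := Algebra.adjoin R1 {ϖ}) (B := F')
        Subtype.val_injective).1 h⟩
  have hcomap : M.comap (algebraMap R1 (Algebra.adjoin R1 {ϖ})) = maximalIdeal R1 := by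
    haveI := Ideal.isMaximal_comap_of_isIntegral_of_isMaximal (R := R1) M
    exact IsLocalRing.eq_maximalIdeal this
  have hπM : algebraMap R1 (Algebra.adjoin R1 {ϖ}) π ∈ M := by
    have : π ∈ M.comap (algebraMap R1 (Algebra.adjoin R1 {ϖ})) := by
      rw [hcomap, mem_maximalIdeal]
      exact hπ.not_isUnit
    exact this
  rw [← s36ci_gen_pow (R1 := R1) he hϖ] at hπM
  exact hM.isPrime.mem_of_pow_mem e hπM

include hπ hϖ he in
theorem s36ci_gen_mem_jacobson :
    s36ci_gen (R1 := R1) ϖ ∈ (⊥ : Ideal (Algebra.adjoin R1 {ϖ})).jacobson := by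
  rw [Ideal.jacobson, Ideal.mem_sInf]
  rintro M ⟨-, hM⟩
  haveI := hM
  exact s36ci_gen_mem_of_isMaximal hπ he hϖ M

include hπ hmax hϖ he in
/-- every element of `R1[ϖ]` is a unit or lies in `(ϖ, u)`. -/
theorem s36ci_isUnit_or_mem (t : Algebra.adjoin R1 {ϖ}) :
    IsUnit t ∨ t ∈ Ideal.span
      {s36ci_gen (R1 := R1) ϖ, algebraMap R1 (Algebra.adjoin R1 {ϖ}) u} := by
  obtain ⟨a, s, ht⟩ := s36ci_exists_const ϖ t
  have hgen : s36ci_gen (R1 := R1) ϖ ∈ Ideal.span
      {s36ci_gen (R1 := R1) ϖ, algebraMap R1 (Algebra.adjoin R1 {ϖ}) u} :=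
    Ideal.subset_span (by simp)
  have hu : algebraMap R1 (Algebra.adjoin R1 {ϖ}) u ∈ Ideal.span
      {s36ci_gen (R1 := R1) ϖ, algebraMap R1 (Algebra.adjoin R1 {ϖ}) u} :=
    Ideal.subset_span (by simp)
  by_cases ha : a ∈ maximalIdeal R1
  · right
    rw [hmax, Ideal.mem_span_pair] at ha
    obtain ⟨c, d, hcd⟩ := ha
    rw [ht, ← hcd, map_add, map_mul, map_mul, ← s36ci_gen_pow (R1 := R1) he hϖ]
    refine Ideal.add_mem _ (Ideal.add_mem _ ?_ ?_) (Ideal.mul_mem_right _ _ hgen)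
    · exact Ideal.mul_mem_left _ _ (Ideal.pow_mem_of_mem _ hgen e (Nat.pos_of_ne_zero he))
    · exact Ideal.mul_mem_left _ _ hu
  · left
    have hau : IsUnit a := by
      by_contra h
      exact ha ((mem_maximalIdeal a).2 h)
    obtain ⟨a', rfl⟩ := hau
    have hjac := (Ideal.mem_jacobson_bot.1 (s36ci_gen_mem_jacobson hπ he hϖ))
      (s * algebraMap R1 (Algebra.adjoin R1 {ϖ}) ((a'⁻¹ : R1ˣ) : R1))
    have hau' : IsUnit (algebraMap R1 (Algebra.adjoin R1 {ϖ}) (a' : R1)) :=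
      (a'.isUnit).map _
    have e1 : t = algebraMap R1 (Algebra.adjoin R1 {ϖ}) (a' : R1) *
        (s36ci_gen (R1 := R1) ϖ * (s * algebraMap R1 (Algebra.adjoin R1 {ϖ})
          ((a'⁻¹ : R1ˣ) : R1)) + 1) := by
      have h1 : algebraMap R1 (Algebra.adjoin R1 {ϖ}) (a' : R1) *
          algebraMap R1 (Algebra.adjoin R1 {ϖ}) ((a'⁻¹ : R1ˣ) : R1) = 1 := by
        rw [← map_mul, Units.mul_inv, map_one]
      rw [ht]
      linear_combination (-(s36ci_gen (R1 := R1) ϖ * s)) * h1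
    rw [e1]
    exact hau'.mul hjac

include K1 hπ hmax hϖ he in
theorem s36ci_span_ne_top : Ideal.span
    {s36ci_gen (R1 := R1) ϖ, algebraMap R1 (Algebra.adjoin R1 {ϖ}) u} ≠ ⊤ := by
  intro htop
  have h1 : (1 : Algebra.adjoin R1 {ϖ}) ∈ Ideal.span
      {s36ci_gen (R1 := R1) ϖ, algebraMap R1 (Algebra.adjoin R1 {ϖ}) u} := by
    rw [htop]; trivial
  rw [Ideal.mem_span_pair] at h1
  obtain ⟨x, y, hxy⟩ := h1
  obtain ⟨b, s, hy⟩ := s36ci_exists_const ϖ y
  have hdvd : s36ci_gen (R1 := R1) ϖ ∣ algebraMap R1 (Algebra.adjoin R1 {ϖ}) (1 - b * u) := by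
    refine ⟨x + s * algebraMap R1 (Algebra.adjoin R1 {ϖ}) u, ?_⟩
    rw [map_sub, map_one, map_mul]
    rw [hy] at hxy
    linear_combination (-1 : Algebra.adjoin R1 {ϖ}) * hxy
  have hπdvd := s36ci_dvd_of_gen_dvd K1 hπ hmax he hϖ _ hdvd
  have hmem : (1 : R1) ∈ maximalIdeal R1 := by
    rw [hmax, Ideal.mem_span_pair]
    obtain ⟨c, hc⟩ := hπdvd
    exact ⟨c, b, by rw [mul_comm c π, ← hc]; ring⟩
  exact (mem_maximalIdeal (1 : R1)).1 hmem isUnit_one

include K1 hπ hmax hϖ he in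
/-- **`R1[ϖ]` is a local ring.** -/
theorem s36ci_isLocalRing_adjoin : IsLocalRing (Algebra.adjoin R1 {ϖ}) := by
  have hne := s36ci_span_ne_top K1 hπ hmax he hϖ
  refine IsLocalRing.of_nonunits_add ?_
  intro a b ha hb
  have ha' := (s36ci_isUnit_or_mem hπ hmax he hϖ a).resolve_left ha
  have hb' := (s36ci_isUnit_or_mem hπ hmax he hϖ b).resolve_left hb
  intro hab
  exact hne (Ideal.eq_top_of_isUnit_mem _ (Ideal.add_mem _ ha' hb') hab)

include K1 hπ hmax hϖ he in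
/-- **the maximal ideal of `R1[ϖ]` is `(ϖ, u)`.** -/
theorem s36ci_maximalIdeal_adjoin :
    haveI := s36ci_isLocalRing_adjoin K1 hπ hmax he hϖ
    maximalIdeal (Algebra.adjoin R1 {ϖ}) = Ideal.span
      {s36ci_gen (R1 := R1) ϖ, algebraMap R1 (Algebra.adjoin R1 {ϖ}) u} := by
  haveI := s36ci_isLocalRing_adjoin K1 hπ hmax he hϖ
  have hne := s36ci_span_ne_top K1 hπ hmax he hϖ
  ext t
  rw [mem_maximalIdeal]
  constructor
  · intro ht
    exact (s36ci_isUnit_or_mem hπ hmax he hϖ t).resolve_left ht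
  · intro ht hu
    exact hne (Ideal.eq_top_of_isUnit_mem _ ht hu)

include K1 hπ hmax hϖ he in
/-- **`R1[ϖ]` is factorial** (hence integrally closed). -/
theorem s36ci_ufd_adjoin : UniqueFactorizationMonoid (Algebra.adjoin R1 {ϖ}) := by
  haveI := s36ci_isLocalRing_adjoin K1 hπ hmax he hϖ
  haveI := s36ci_isNoetherianRing_adjoin (R1 := R1) he hϖ
  exact fc_ufd (s36ci_gen_prime K1 hπ hmax he hϖ) (s36ci_maximalIdeal_adjoin K1 hπ hmax he hϖ)

include K1 hπ hmax hϖ he in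
/-- **`R1[ϖ] ⧸ ϖ` is a principal ideal ring.** -/
theorem s36ci_pid_quot : IsPrincipalIdealRing
    (Algebra.adjoin R1 {ϖ} ⧸ Ideal.span {s36ci_gen (R1 := R1) ϖ}) := by
  haveI := s36ci_isLocalRing_adjoin K1 hπ hmax he hϖ
  haveI := s36ci_isNoetherianRing_adjoin (R1 := R1) he hϖ
  exact nfr_isPrincipalIdealRing_quot (s36ci_gen_prime K1 hπ hmax he hϖ)
    (s36ci_maximalIdeal_adjoin K1 hπ hmax he hϖ)

end TameBase

end Fermat.Agent.S36
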