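/-
Project S36 (Carayol), insurance cell [C-INS] (helper27), file [T].  Prefix `s36ci_`.

TRANSFER OF FACTORIALITY TO THE INTEGRAL CLOSURE OF A LOCALISED BASE.

`A ⊆ F'` a factorial subalgebra (over any base) (in the application: the integral closure in `F'` of the tame base
`T0 = R1[ϖ]`), `R` a ring with `Algebra R F'` (the local ring of the chart at the point).  If every
element of `A` is integral over `R` and every element of `F'` integral over `R` is of the form
`x / s` with `x, s ∈ A` and `s⁻¹` integral over `R`, then `integralClosure R F'` is a localisation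
of `A`, hence factorial.
-/
import Mathlib

set_option autoImplicit false
set_option linter.unusedSectionVars false
set_option linter.unusedVariables false
set_option linter.style.haveILetI false

namespace Fermat.Agent.S36

section Transfer

variable {R : Type*} [CommRing R] {F' : Type*} [Field F'] [Algebra R F']

/-- the submonoid of the elements of `A` which become units of `integralClosure R F'`. -/
def s36ci_unitSubmonoid (R : Type*) [CommRing R] {F' : Type*} [Field F'] [Algebra R F']
    {A0 : Type*} [CommRing A0] [Algebra A0 F'] (A : Subalgebra A0 F') : Submonoid A where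
  carrier := {s | (s : F') ≠ 0 ∧ IsIntegral R ((s : F'))⁻¹}
  one_mem' := ⟨by simp, by simpa using isIntegral_one⟩
  mul_mem' := by
    rintro a b ⟨ha0, ha⟩ ⟨hb0, hb⟩
    refine ⟨by simpa using mul_ne_zero ha0 hb0, ?_⟩
    have : ((a * b : A) : F')⁻¹ = ((a : F'))⁻¹ * ((b : F'))⁻¹ := by
      rw [Subalgebra.coe_mul, mul_inv]
    rw [this]
    exact ha.mul hb

/-- **[C-INS] (T): transfer of factoriality.** -/
theorem s36ci_ufd_transfer {A0 : Type*} [CommRing A0] [Algebra A0 F'] (A : Subalgebra A0 F')
    [UniqueFactorizationMonoid A]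
    (h1 : ∀ x ∈ A, IsIntegral R x)
    (h2 : ∀ x : F', IsIntegral R x → ∃ s ∈ A, s ≠ 0 ∧ IsIntegral R s⁻¹ ∧ s * x ∈ A) :
    UniqueFactorizationMonoid (integralClosure R F') := by
  set T := integralClosure R F' with hT
  let ι : A →+* T :=
    { toFun := fun x => ⟨(x : F'), h1 _ x.2⟩
      map_one' := rfl
      map_mul' := fun _ _ => rfl
      map_zero' := rfl
      map_add' := fun _ _ => rfl }
  letI : Algebra A T := ι.toAlgebra
  have hι : ∀ x : A, ((algebraMap A T x : T) : F') = (x : F') := fun _ => rfl
  haveI : IsLocalization (s36ci_unitSubmonoid R A) T := by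
    rw [isLocalization_iff]
    refine ⟨?_, ?_, ?_⟩
    · rintro ⟨s, hs0, hs⟩
      refine IsUnit.of_mul_eq_one (⟨((s : F'))⁻¹, hs⟩ : T) ?_
      apply Subtype.ext
      show (s : F') * ((s : F'))⁻¹ = 1
      exact mul_inv_cancel₀ hs0
    · intro z
      obtain ⟨s, hsA, hs0, hsinv, hsx⟩ := h2 (z : F') z.2
      refine ⟨(⟨s * (z : F'), hsx⟩, ⟨⟨s, hsA⟩, hs0, hsinv⟩), ?_⟩
      apply Subtype.ext
      show (z : F') * s = s * (z : F')
      exact mul_comm _ _
    · intro x y hxy
      refine ⟨1, ?_⟩
      have : (x : F') = (y : F') := congrArg (fun t : T => (t : F')) hxy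
      rw [Subtype.ext this]
  exact UniqueFactorizationMonoid.of_isLocalization (s36ci_unitSubmonoid R A) T

end Transfer

end Fermat.Agent.S36
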