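/-
Project S36 (Carayol), insurance cell [C-INS] (helper27), file [G].  Prefix `s36ci_`.

THE ABSTRACT NORM-DOWN THEOREM AT A POINT LYING OVER A REGULAR POINT.

* `R1` : a regular local ring of dimension `≤ 2`, `𝔪 = (π, u)`, `π` prime (the local ring of the
  level-`N' q` chart at the smooth point `pt_B`), fraction field `K1`;
* `R`  : a noetherian normal domain with fraction field `F0` (the local ring of the level-`N' q²`
  chart at the point `n_C`), an `R1`-algebra, which is "a localisation of something integral over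
  `R1`" (`hloc`);
* `F' / F0` finite separable, containing `ϖ` with `ϖ ^ e = π`;  `T0 := R1[ϖ]`, `K' = Frac T0`;
* `hunr` : `F'` is unramified over `T0` in codimension one.

Then every `f ∈ F0ˣ` which is a unit times an `m`-th power at every height-one prime of `R`
satisfies `f ^ [F' : F0] = ω g ^ m` with `ω ∈ Rˣ`.
-/
import Mathlib
import Fermat.Agent.S36.CIns.NormDown
import Fermat.Agent.S36.CIns.TameBase
import Fermat.Agent.S36.CIns.Purity
import Fermat.Agent.S36.CIns.Transfer

set_option autoImplicit false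
set_option linter.unusedSectionVars false
set_option linter.unusedVariables false
set_option linter.style.haveILetI false

namespace Fermat.Agent.S36

open Fermat.Agent.JT3 Fermat.Agent.SS IsLocalRing

section MainAbs

variable {R1 : Type*} [CommRing R1] [IsDomain R1] [IsLocalRing R1] [IsNoetherianRing R1]
  (K1 : Type*) [Field K1] [Algebra R1 K1] [IsFractionRing R1 K1]
  {R : Type*} [CommRing R] [IsDomain R] [IsNoetherianRing R] [IsIntegrallyClosed R]
  {F0 : Type*} [Field F0] [Algebra R F0] [IsFractionRing R F0]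
  {F' : Type*} [Field F'] [Algebra F0 F'] [Algebra R F'] [IsScalarTower R F0 F']
  [FiniteDimensional F0 F'] [Algebra.IsSeparable F0 F']
  [Algebra K1 F'] [Algebra R1 F'] [IsScalarTower R1 K1 F']
  [Algebra R1 R] [IsScalarTower R1 R F']

include K1 in
/-- **[C-INS] the abstract main theorem.** -/
theorem s36ci_main_abs {π u : R1} (hπ : Prime π) (hmax : maximalIdeal R1 = Ideal.span {π, u})
    {e : ℕ} (he : e ≠ 0) {ϖ : F'} (hϖ : ϖ ^ e = algebraMap R1 F' π)
    (K' : Type*) [Field K'] [Algebra (Algebra.adjoin R1 {ϖ}) K']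
    [IsFractionRing (Algebra.adjoin R1 {ϖ}) K'] [Algebra K' F']
    [IsScalarTower (Algebra.adjoin R1 {ϖ}) K' F'] [FiniteDimensional K' F']
    [Algebra.IsSeparable K' F']
    (hunr : ∀ (p : Ideal (Algebra.adjoin R1 {ϖ})) [p.IsPrime], p.height = 1 →
      jt_Unram (el_bd_loc K' p) F')
    (hloc : ∀ x : F', IsIntegral R x → ∃ σ : F', σ ≠ 0 ∧ IsIntegral R1 σ ∧ IsIntegral R σ⁻¹ ∧
      IsIntegral R1 (σ * x))
    (m : ℕ) (hm : m ≠ 0) (f : F0) (hf : f ≠ 0)
    (hdiv : ∀ 𝔮 : Ideal R, 𝔮.IsPrime → 𝔮.height = 1 →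
      ∃ G : F0, G ≠ 0 ∧ ssl_UnitAt F0 𝔮 (f / G ^ m)) :
    ∃ (ω : Rˣ) (g : F0), f ^ Module.finrank F0 F' = algebraMap R F0 (ω : R) * g ^ m := by
  set T0 := Algebra.adjoin R1 {ϖ} with hT0
  haveI hloc0 : IsLocalRing T0 := s36ci_isLocalRing_adjoin K1 hπ hmax he hϖ
  haveI hnoe0 : IsNoetherianRing T0 := s36ci_isNoetherianRing_adjoin (R1 := R1) he hϖ
  haveI hufd0 : UniqueFactorizationMonoid T0 := s36ci_ufd_adjoin K1 hπ hmax he hϖ
  haveI hic0 : IsIntegrallyClosed T0 := inferInstance
  haveI hpid : IsPrincipalIdealRing (T0 ⧸ Ideal.span {s36ci_gen (R1 := R1) ϖ}) :=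
    s36ci_pid_quot K1 hπ hmax he hϖ
  have hprime : Prime (s36ci_gen (R1 := R1) ϖ) := s36ci_gen_prime K1 hπ hmax he hϖ
  haveI hufd1 : UniqueFactorizationMonoid (integralClosure T0 F') :=
    s36ci_purity_ufd K' F' hprime hunr
  -- integrality bookkeeping
  haveI hfin0 : Module.Finite R1 T0 := s36ci_finite_adjoin (R1 := R1) he hϖ
  haveI hint0 : Algebra.IsIntegral R1 T0 := Algebra.IsIntegral.of_finite R1 T0
  have hT0R1 : ∀ x : F', IsIntegral T0 x → IsIntegral R1 x := fun x hx =>
    isIntegral_trans (R := R1) (A := T0) x hx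
  have hR1T0 : ∀ x : F', IsIntegral R1 x → IsIntegral T0 x := fun x hx =>
    IsIntegral.tower_top (A := T0) hx
  have hR1R : ∀ x : F', IsIntegral R1 x → IsIntegral R x := fun x hx =>
    IsIntegral.tower_top (A := R) hx
  haveI hufd2 : UniqueFactorizationMonoid (integralClosure R F') := by
    refine s36ci_ufd_transfer (R := R) (integralClosure T0 F') ?_ ?_
    · intro x hx
      exact hR1R x (hT0R1 x hx)
    · intro x hx
      obtain ⟨σ, hσ0, hσ1, hσinv, hσx⟩ := hloc x hx
      exact ⟨σ, hR1T0 σ hσ1, hσ0, hσinv, hR1T0 _ hσx⟩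
  exact s36ci_normDown (R := R) (F0 := F0) (F' := F') m hm f hf hdiv

end MainAbs

end Fermat.Agent.S36
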